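import Fermat.Agent.GammaHolder.Invariant

/-!
# The algebraic core of Hölder's theorem

A homomorphism `φ : ℂ(x) →+* F` into a non-trivial ring with an endomorphism `S` compatible with
`x ↦ x + 1`, and elements `Z`, `Y₀, Y₁, …` of `F` transforming like the Gamma function and the
derivatives of the digamma function, `Z` being a unit: then the `Z, Yₖ` are algebraically
independent over `ℂ(x)`.
-/

noncomputable section

namespace Fermat.Agent.GammaHolder

open MvPolynomial

variable {P : MvPolynomial (Option ℕ) (RatFunc ℂ)}

theorem exists_single_of_degree_one {d : Option ℕ →₀ ℕ} (h : d.degree = 1) :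
    ∃ i, d = Finsupp.single i 1 := by
  have hd : d ∈ Set.range fun i : Option ℕ => Finsupp.single i 1 := by
    rw [Finsupp.range_single_one]
    exact h
  obtain ⟨i, rfl⟩ := hd
  exact ⟨i, rfl⟩

/-- The constant coefficient of the image of a linear polynomial. -/
theorem coeff_zero_holderSubst (hP : Below 2 P) :
    ∃ N : ℕ, (∀ k, N ≤ k → coeff (Finsupp.single (some k) 1) P = 0) ∧
      coeff 0 (holderSubst P) = shiftHom (coeff 0 P) +
        ∑ k ∈ Finset.range N,
          shiftHom (coeff (Finsupp.single (some k) 1) P) * polygammaJump k := by
  classical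
  set s : Finset ℕ := Finset.eraseNone (P.support.biUnion fun e => e.support) with hs
  obtain ⟨N, hN⟩ : ∃ N, ∀ k ∈ s, k < N :=
    ⟨s.sup id + 1, fun k hk => Nat.lt_succ_of_le (Finset.le_sup (f := id) hk)⟩
  have hN' : ∀ k, N ≤ k → coeff (Finsupp.single (some k) 1) P = 0 := by
    intro k hk
    by_contra h
    exact absurd (hN k (by
      rw [hs, Finset.mem_eraseNone, Finset.mem_biUnion]
      exact ⟨_, mem_support_iff.2 h, by simp⟩)) (by omega)
  refine ⟨N, hN', ?_⟩
  have hdecomp : P = C (coeff 0 P) + C (coeff (Finsupp.single none 1) P) * X none +
      ∑ k ∈ Finset.range N, C (coeff (Finsupp.single (some k) 1) P) * X (some k) := by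
    ext e
    simp only [C_mul_X_eq_monomial, coeff_add, coeff_sum, coeff_monomial, coeff_C]
    rcases Nat.lt_or_ge e.degree 2 with he | he
    · rcases Nat.lt_or_ge e.degree 1 with h0 | h1
      · obtain rfl : e = 0 := (Finsupp.degree_eq_zero_iff e).1 (by omega)
        simp
      · obtain ⟨i, rfl⟩ := exists_single_of_degree_one (d := e) (by omega)
        have hne : ¬ (0 : Option ℕ →₀ ℕ) = Finsupp.single i 1 := fun h => by
          simpa using congrArg Finsupp.degree h
        cases i with
        | none => simp [hne, Finsupp.single_left_inj]
        | some k =>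
          by_cases hk : k < N
          · simp [hne, hk, Finsupp.single_left_inj]
          · simp [hne, hk, Finsupp.single_left_inj, hN' k (by omega)]
    · have hne : ∀ i : Option ℕ, Finsupp.single i 1 ≠ e := by
        rintro i rfl
        simp at he
      have h0 : (0 : Option ℕ →₀ ℕ) ≠ e := by
        rintro rfl
        simp at he
      simp [hP e he, hne, h0]
  conv_lhs => rw [hdecomp]
  simp [holderVar, coeff_sum, mul_add, coeff_C]

/-- **No invariant polynomial involves the derivatives of the digamma function.** -/
theorem no_invariant : ∀ (n : ℕ) (P : MvPolynomial (Option ℕ) (RatFunc ℂ))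
    (m : Option ℕ →₀ ℕ), Below (n + 1) P → m.degree = n → (∃ k, m (some k) ≠ 0) →
    (∃ c : ℂ, c ≠ 0 ∧ coeff m P = RatFunc.C c) →
    holderSubst P = C (RatFunc.X ^ m none) * P → False := by
  intro n
  induction n with
  | zero =>
    intro P m _ hm ⟨k, hk⟩ _ _
    exact hk (by rw [(Finsupp.degree_eq_zero_iff m).1 hm]; rfl)
  | succ n ih =>
    intro P m hP hm ⟨k, hk⟩ ⟨c, hc, hcm⟩ hτ
    rcases Nat.eq_zero_or_pos n with rfl | hn
    · -- degree one: compare the constant coefficients
      obtain ⟨i, rfl⟩ := exists_single_of_degree_one hm
      obtain rfl : i = some k := by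
        by_contra h
        exact hk (by simp [Ne.symm h])
      simp only [Finsupp.single_apply, reduceCtorEq, if_false, pow_zero, C_1, one_mul] at hτ
      obtain ⟨N, hN, h0⟩ := coeff_zero_holderSubst hP
      have hconst : ∀ j : ℕ, ∃ a : ℂ, coeff (Finsupp.single (some j) 1) P = RatFunc.C a := by
        intro j
        have h := coeff_holderSubst hP (d := Finsupp.single (some j) 1) (by simp)
        rw [hτ] at h
        by_cases hz : coeff (Finsupp.single (some j) 1) P = 0
        · exact ⟨0, by rw [hz, map_zero]⟩
        · obtain ⟨-, a, -, ha⟩ := shift_eq_pow_mul (k := 0)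
            (by simpa [eq_comm] using h) hz
          exact ⟨a, ha⟩
      choose a ha using hconst
      have hk' : k < N := by
        by_contra h
        rw [hN k (by omega), eq_comm, ← map_zero RatFunc.C, RatFunc.C_injective.eq_iff] at hcm
        exact hc hcm
      have hb := coeff_eq_zero_of_shift_sub (f := -coeff 0 P) (N := N)
        (a := fun j => a j * ((-1 : ℂ) ^ j * (j.factorial : ℂ))) (by
          rw [hτ] at h0
          simp only [ha, shiftHom_C, polygammaJump, mul_div_assoc', ← map_mul] at h0
          rw [map_neg]
          linear_combination h0) k hk'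
      rw [ha k, RatFunc.C_injective.eq_iff] at hcm
      simp [hcm, hc, Nat.factorial_ne_zero] at hb
    · -- higher degree: differentiate
      obtain ⟨i, hi, hrest⟩ : ∃ i, m i ≠ 0 ∧ ∃ l, (m - Finsupp.single i 1 : Option ℕ →₀ ℕ)
          (some l) ≠ 0 := by
        by_cases hz : m none = 0
        · refine ⟨some k, hk, ?_⟩
          by_contra hall
          push Not at hall
          have h0 : m - Finsupp.single (some k) 1 = 0 := by
            ext i
            cases i with
            | none => simp [hz]
            | some l => exact hall l
          have hle : Finsupp.single (some k) 1 ≤ m :=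
            Finsupp.single_le_iff.2 (Nat.one_le_iff_ne_zero.2 hk)
          have h1 : m = Finsupp.single (some k) 1 := by
            rw [← tsub_add_cancel_of_le hle, h0, zero_add]
          rw [h1, Finsupp.degree_single] at hm
          omega
        · exact ⟨none, hz, k, by simpa using hk⟩
      set m' : Option ℕ →₀ ℕ := m - Finsupp.single i 1 with hm'def
      have hadd : m' + Finsupp.single i 1 = m :=
        tsub_add_cancel_of_le (Finsupp.single_le_iff.2 (Nat.one_le_iff_ne_zero.2 hi))
      have hdeg : m'.degree = n := by
        have := congrArg Finsupp.degree hadd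
        rw [map_add, Finsupp.degree_single, hm] at this
        omega
      refine ih (pderiv i P) m' ?_ hdeg hrest ⟨c * (m' i + 1), ?_, ?_⟩ ?_
      · intro e he
        rw [coeff_pderiv, hP _ (by rw [map_add, Finsupp.degree_single]; omega), zero_mul]
      · exact mul_ne_zero hc (Nat.cast_add_one_ne_zero _)
      · rw [coeff_pderiv, hadd, hcm]
        simp
      · have h := congrArg (pderiv i) hτ
        have hw : RatFunc.X ^ m none = holderFactor i * RatFunc.X ^ m' none := by
          rw [holderFactor, ← pow_add, ← Finsupp.add_apply, add_comm, hadd]
        rw [pderiv_holderSubst, pderiv_C_mul, hw, C_mul, mul_assoc] at h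
        exact mul_left_cancel₀ (by simp [holderFactor, RatFunc.X_ne_zero]) h

/-- **The algebraic core of Hölder's theorem.** -/
theorem eq_zero_of_eval_eq_zero {F : Type*} [CommRing F] [Nontrivial F]
    (φ : RatFunc ℂ →+* F) (S : F →+* F) (v : Option ℕ → F)
    (hφ : S.comp φ = φ.comp shiftHom) (hv : ∀ i, S (v i) = eval₂ φ v (holderVar i))
    (hunit : IsUnit (v none)) :
    ∀ P : MvPolynomial (Option ℕ) (RatFunc ℂ), eval₂ φ v P = 0 → P = 0 := by
  classical
  have hS : ∀ P, eval₂ φ v (holderSubst P) = S (eval₂ φ v P) := by
    have h : (eval₂Hom φ v).comp holderSubst = S.comp (eval₂Hom φ v) := by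
      refine ringHom_ext (fun c => ?_) fun i => ?_
      · simpa using (RingHom.congr_fun hφ c).symm
      · simpa using (hv i).symm
    exact fun P => RingHom.congr_fun h P
  suffices H : ∀ (D j : ℕ) (P : MvPolynomial (Option ℕ) (RatFunc ℂ)), Below (D + 1) P →
      (P.support.filter fun e => e.degree = D).card = j → eval₂ φ v P = 0 → P = 0 by
    intro P hP
    refine H (P.support.sup fun e => e.degree) _ P ?_ rfl hP
    intro e he
    by_contra h
    have : e.degree ≤ P.support.sup fun e => e.degree :=
      Finset.le_sup (f := fun e : Option ℕ →₀ ℕ => e.degree) (mem_support_iff.2 h)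
    omega
  intro D
  induction D using Nat.strong_induction_on with
  | _ D ihD =>
    intro j
    induction j using Nat.strong_induction_on with
    | _ j ihj =>
      intro P hP hj hev
      by_cases hT : P.support.filter (fun e => e.degree = D) = ∅
      · have hlow : Below D P := by
          intro e he
          rcases Nat.eq_or_lt_of_le he with h | h
          · by_contra hne
            have : e ∈ P.support.filter (fun e => e.degree = D) :=
              Finset.mem_filter.2 ⟨mem_support_iff.2 hne, h.symm⟩
            simp [hT] at this
          · exact hP e h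
        cases D with
        | zero => exact ext _ _ fun e => by rw [hlow e (Nat.zero_le _), coeff_zero]
        | succ d => exact ihD d d.lt_succ_self _ P hlow rfl hev
      by_contra hP0
      -- a top monomial, involving a `Yₖ` if possible
      obtain ⟨m, hm, hpref⟩ : ∃ m ∈ P.support.filter (fun e => e.degree = D),
          (∃ k, m (some k) ≠ 0) ∨
            ∀ e ∈ P.support.filter (fun e => e.degree = D), ∀ k, e (some k) = 0 := by
        by_cases h : ∃ e ∈ P.support.filter (fun e => e.degree = D), ∃ k, e (some k) ≠ 0
        · obtain ⟨e, he, hk⟩ := h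
          exact ⟨e, he, Or.inl hk⟩
        · push Not at h
          obtain ⟨e, he⟩ := Finset.nonempty_iff_ne_empty.2 hT
          exact ⟨e, he, Or.inr h⟩
      obtain ⟨hms, hmD⟩ := Finset.mem_filter.1 hm
      have hc : coeff m P ≠ 0 := mem_support_iff.1 hms
      set P' := C (coeff m P)⁻¹ * P with hP'
      have hm1 : coeff m P' = 1 := by rw [hP', coeff_C_mul, inv_mul_cancel₀ hc]
      have hP'0 : P' ≠ 0 := fun h => by simp [h] at hm1
      have hB' : Below (D + 1) P' := hP.C_mul _
      have hev' : eval₂ φ v P' = 0 := by rw [hP', eval₂_mul, hev, mul_zero]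
      clear_value P'
      -- the invariance
      have hinv : holderSubst P' = C (RatFunc.X ^ m none) * P' := by
        rw [← sub_eq_zero]
        set Q := holderSubst P' - C (RatFunc.X ^ m none) * P'
        have hQ : Below (D + 1) Q := (below_holderSubst hB').sub (hB'.C_mul _)
        have hQev : eval₂ φ v Q = 0 := by
          rw [eval₂_sub, hS, eval₂_mul, hev', map_zero, mul_zero, sub_zero]
        refine ihj _ ?_ Q hQ rfl hQev
        rw [← hj]
        refine Finset.card_lt_card (Finset.ssubset_iff_of_subset ?_ |>.2 ⟨m, hm, ?_⟩)
        · intro e he
          obtain ⟨hes, heD⟩ := Finset.mem_filter.1 he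
          refine Finset.mem_filter.2 ⟨mem_support_iff.2 fun h0 => mem_support_iff.1 hes ?_, heD⟩
          rw [coeff_sub, coeff_holderSubst hB' heD, hP', coeff_C_mul, coeff_C_mul, coeff_C_mul,
            h0]
          simp
        · intro he
          refine mem_support_iff.1 (Finset.mem_filter.1 he).1 ?_
          rw [coeff_sub, coeff_holderSubst hB' hmD, coeff_C_mul, hm1, map_one, one_mul, mul_one,
            sub_self]
      rcases hpref with hY | hZ
      · exact no_invariant D P' m hB' hmD hY ⟨1, one_ne_zero, by rw [hm1, map_one]⟩ hinv
      -- only `Z ^ D` occurs in top degree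
      have honly : ∀ e ∈ P.support.filter (fun e => e.degree = D),
          e = Finsupp.single none D := by
        intro e he
        have h : e = Finsupp.single none (e none) := by
          ext i
          cases i with
          | none => simp
          | some k => simp [hZ e he k]
        rw [h, show e none = D from ?_]
        rw [← (Finset.mem_filter.1 he).2]
        conv_rhs => rw [h, Finsupp.degree_single]
      obtain rfl := honly m hm
      simp only [Finsupp.single_eq_same] at hinv
      set R := P' - monomial (Finsupp.single none D) 1 with hR
      have hRlow : Below D R := by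
        intro e he
        rw [hR, coeff_sub, coeff_monomial]
        split_ifs with h
        · rw [← h, hm1, sub_self]
        · rw [sub_zero]
          rcases Nat.eq_or_lt_of_le he with h' | h'
          · by_contra hne
            refine h (honly e (Finset.mem_filter.2 ⟨mem_support_iff.2 fun h0 => hne ?_,
              h'.symm⟩)).symm
            rw [hP', coeff_C_mul, h0, mul_zero]
          · exact hB' e h'
      have hZD : holderSubst (monomial (Finsupp.single none D) 1) =
          C (RatFunc.X ^ D) * monomial (Finsupp.single none D) 1 := by
        rw [← X_pow_eq_monomial, map_pow, holderSubst_X, holderVar, mul_pow, C_pow]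
      have hRinv : holderSubst R = C (RatFunc.X ^ D) * R := by
        rw [hR, map_sub, mul_sub, hinv, hZD]
      by_cases hR0 : R = 0
      · rw [hR, sub_eq_zero] at hR0
        rw [hR0, ← X_pow_eq_monomial, eval₂_pow, eval₂_X] at hev'
        exact (hunit.pow D).ne_zero hev'
      obtain ⟨d, hd, hmax⟩ := Finset.exists_max_image R.support (fun e => e.degree)
        (support_nonempty.2 hR0)
      have hdD : d.degree < D := by
        by_contra h
        exact mem_support_iff.1 hd (hRlow d (by omega))
      have hBd : Below (d.degree + 1) R := fun e he => by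
        by_contra h
        have := hmax e (mem_support_iff.2 h)
        omega
      have hcd := coeff_holderSubst hBd rfl
      rw [hRinv, coeff_C_mul] at hcd
      have hle : d none ≤ d.degree := Finsupp.le_degree none d
      have h := shift_eq_pow_mul (k := D - d none) (c := coeff d R) ?_ (mem_support_iff.1 hd)
      · omega
      · refine mul_right_cancel₀ (pow_ne_zero (d none) RatFunc.X_ne_zero) ?_
        rw [← hcd, mul_right_comm, ← pow_add, Nat.sub_add_cancel (by omega)]

end Fermat.Agent.GammaHolder
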