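import Fermat.Agent.GammaHolder.Germ
import Mathlib.Algebra.MvPolynomial.Derivation
import Mathlib.Algebra.MvPolynomial.Supported

/-!
# The derivatives of Gamma in terms of digamma

`Γ^(k) = Γ · Bₖ(ψ, ψ', …)` for universal polynomials `Bₖ`, and `B_(k+1)` is `Yₖ` plus a
polynomial in the earlier variables.
-/

noncomputable section

namespace Fermat.Agent.GammaHolder

open MvPolynomial

/-- The derivation `Yᵢ ↦ Y_(i+1)`. -/
def stepDerivation : Derivation ℤ (MvPolynomial ℕ ℤ) (MvPolynomial ℕ ℤ) :=
  mkDerivation ℤ fun i => X (i + 1)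

/-- The polynomials `Bₖ` with `Γ^(k) = Γ · Bₖ(ψ, ψ', …)`. -/
def bellPoly : ℕ → MvPolynomial ℕ ℤ
  | 0 => 1
  | k + 1 => X 0 * bellPoly k + stepDerivation (bellPoly k)

theorem stepDerivation_X (i : ℕ) : stepDerivation (X i) = X (i + 1) :=
  mkDerivation_X _ _ _

theorem stepDerivation_mem_supported {k : ℕ} {P : MvPolynomial ℕ ℤ}
    (hP : P ∈ supported ℤ (Set.Iio k)) : stepDerivation P ∈ supported ℤ (Set.Iio (k + 1)) := by
  refine Algebra.adjoin_induction (p := fun Q _ => stepDerivation Q ∈ supported ℤ (Set.Iio (k + 1)))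
    ?_ ?_ ?_ ?_ hP
  · rintro _ ⟨i, hi, rfl⟩
    rw [stepDerivation_X, X_mem_supported]
    exact Nat.succ_lt_succ hi
  · intro r
    rw [Derivation.map_algebraMap]
    exact zero_mem _
  · intro p q _ _ hp hq
    rw [map_add]
    exact add_mem hp hq
  · intro p q hp hq hp' hq'
    have hmono : supported ℤ (Set.Iio k) ≤ supported ℤ (Set.Iio (k + 1)) :=
      supported_mono (Set.Iio_subset_Iio k.le_succ)
    rw [Derivation.leibniz, smul_eq_mul, smul_eq_mul]
    exact add_mem (mul_mem (hmono hp) hq') (mul_mem (hmono hq) hp')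

/-- `B_(k+1)` is `Yₖ` plus a polynomial in the variables before `Yₖ`. -/
theorem bellPoly_succ_sub_mem : ∀ k : ℕ, bellPoly (k + 1) - X k ∈ supported ℤ (Set.Iio k)
  | 0 => by simp [bellPoly]
  | k + 1 => by
    have ih := bellPoly_succ_sub_mem k
    have hmono : supported ℤ (Set.Iio k) ≤ supported ℤ (Set.Iio (k + 1)) :=
      supported_mono (Set.Iio_subset_Iio k.le_succ)
    have h0 : (X 0 : MvPolynomial ℕ ℤ) ∈ supported ℤ (Set.Iio (k + 1)) :=
      X_mem_supported.2 k.succ_pos
    have hk : (X k : MvPolynomial ℕ ℤ) ∈ supported ℤ (Set.Iio (k + 1)) :=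
      X_mem_supported.2 k.lt_succ_self
    have h : bellPoly (k + 1 + 1) - X (k + 1) =
        X 0 * X k + X 0 * (bellPoly (k + 1) - X k) + stepDerivation (bellPoly (k + 1) - X k) := by
      rw [map_sub, stepDerivation_X, bellPoly]
      ring
    rw [h]
    exact add_mem (add_mem (mul_mem h0 hk) (mul_mem h0 (hmono ih)))
      (stepDerivation_mem_supported ih)

theorem aeval_bellPoly_succ {R : Type*} [CommRing R] [Algebra ℤ R] (k : ℕ) (y y' : ℕ → R)
    (h : ∀ i < k, y i = y' i) :
    aeval y (bellPoly (k + 1)) - y k = aeval y' (bellPoly (k + 1)) - y' k := by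
  have h' : aeval y (bellPoly (k + 1) - X k) = aeval y' (bellPoly (k + 1) - X k) :=
    Algebra.adjoin_induction (p := fun Q _ => aeval y Q = aeval y' Q)
      (by rintro _ ⟨i, hi, rfl⟩; simpa using h i hi) (fun r => by simp)
      (fun p q _ _ hp hq => by rw [map_add, map_add, hp, hq])
      (fun p q _ _ hp hq => by rw [map_mul, map_mul, hp, hq]) (bellPoly_succ_sub_mem k)
  simpa using h'

/-- The triangular system `B_(k+1)(y) = uₖ` is solvable. -/
theorem exists_bellPoly_eq {R : Type*} [CommRing R] [Algebra ℤ R] (u : ℕ → R) :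
    ∀ N : ℕ, ∃ y : ℕ → R, ∀ k < N, aeval y (bellPoly (k + 1)) = u k
  | 0 => ⟨0, fun k hk => absurd hk (Nat.not_lt_zero k)⟩
  | N + 1 => by
    obtain ⟨y, hy⟩ := exists_bellPoly_eq u N
    refine ⟨Function.update y N (u N - (aeval y (bellPoly (N + 1)) - y N)), fun k hk => ?_⟩
    rcases Nat.lt_succ_iff_lt_or_eq.1 hk with h | rfl
    · have h' := aeval_bellPoly_succ k y
        (Function.update y N (u N - (aeval y (bellPoly (N + 1)) - y N)))
        fun i hi => (Function.update_of_ne (by omega) _ _).symm
      rw [Function.update_of_ne h.ne, hy k h] at h'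
      linear_combination -h'
    · have h' := aeval_bellPoly_succ k y
        (Function.update y k (u k - (aeval y (bellPoly (k + 1)) - y k)))
        fun i hi => (Function.update_of_ne hi.ne _ _).symm
      rw [Function.update_self] at h'
      linear_combination -h'

theorem hasDerivAt_aeval_digamma (P : MvPolynomial ℕ ℤ) {z : ℂ} (hz : z ∈ gammaDomain) :
    HasDerivAt (fun w => aeval (fun i => iteratedDeriv i Complex.digamma w) P)
      (aeval (fun i => iteratedDeriv i Complex.digamma z) (stepDerivation P)) z := by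
  induction P using MvPolynomial.induction_on with
  | C a => simpa [Derivation.map_algebraMap] using hasDerivAt_const z (a : ℂ)
  | add p q hp hq => simpa [map_add] using hp.fun_add hq
  | mul_X p i hp =>
    have hi : HasDerivAt (iteratedDeriv i Complex.digamma)
        (iteratedDeriv (i + 1) Complex.digamma z) z := by
      rw [iteratedDeriv_succ, iteratedDeriv_eq_iterate]
      exact ((analyticOnNhd_digamma.iterated_deriv i) z hz).differentiableAt.hasDerivAt
    have h := hp.fun_mul hi
    simp only [map_mul, aeval_X, Derivation.leibniz, smul_eq_mul, stepDerivation_X, map_add]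
    refine h.congr_deriv ?_
    ring

/-- **The derivatives of Gamma**: `Γ^(k) = Γ · Bₖ(ψ, ψ', …)` away from the poles. -/
theorem iteratedDeriv_Gamma_eq (k : ℕ) : ∀ {z : ℂ}, z ∈ gammaDomain →
    iteratedDeriv k Complex.Gamma z =
      Complex.Gamma z * aeval (fun i => iteratedDeriv i Complex.digamma z) (bellPoly k) := by
  induction k with
  | zero => simp [bellPoly]
  | succ k ih =>
    intro z hz
    have hev : iteratedDeriv k Complex.Gamma =ᶠ[nhds z] fun w =>
        Complex.Gamma w * aeval (fun i => iteratedDeriv i Complex.digamma w) (bellPoly k) :=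
      Filter.eventuallyEq_of_mem (isOpen_gammaDomain.mem_nhds hz) fun w hw => ih hw
    rw [iteratedDeriv_succ, hev.deriv_eq,
      ((Complex.differentiableAt_Gamma z hz).hasDerivAt.fun_mul
        (hasDerivAt_aeval_digamma (bellPoly k) hz)).deriv,
      bellPoly, map_add, map_mul, aeval_X, iteratedDeriv_zero, Complex.digamma_def,
      logDeriv_apply]
    field_simp [Complex.Gamma_ne_zero hz]

end Fermat.Agent.GammaHolder
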