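import Fermat.Agent.GammaHolder.Relations
import Mathlib.Analysis.Complex.RealDeriv

/-!
# The forms of Hölder's theorem

The real variable form and the form for the digamma function.
-/

noncomputable section

namespace Fermat.Agent.GammaHolder

open MvPolynomial Filter Topology

theorem exists_mem_gammaDomain {U : Set ℂ} (hU : IsOpen U) (hne : U.Nonempty) :
    ∃ z ∈ U, z ∈ gammaDomain := by
  have hd : Dense ((Set.range fun m : ℕ => -(m : ℂ))ᶜ) := (Set.countable_range _).dense_compl ℝ
  obtain ⟨z, hz, hzU⟩ := hd.inter_open_nonempty U hU hne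
  exact ⟨z, hz, fun m hm => hzU ⟨m, hm.symm⟩⟩

theorem frequently_of_mem_open {U : Set ℂ} (hU : IsOpen U) {z : ℂ} (hz : z ∈ U) {p : ℂ → Prop}
    (h : ∀ w ∈ U, p w) : ∃ᶠ w in 𝓝[≠] z, p w :=
  ((eventually_of_mem (nhdsWithin_le_nhds (hU.mem_nhds hz)) h)).frequently

/-- The complex derivatives of Gamma at real points are the real ones. -/
theorem iteratedDeriv_Gamma_ofReal (k : ℕ) : ∀ {t : ℝ}, (t : ℂ) ∈ gammaDomain →
    iteratedDeriv k Complex.Gamma t = ((iteratedDeriv k Real.Gamma t : ℝ) : ℂ) := by
  induction k with
  | zero => intro t _; simp [Complex.Gamma_ofReal]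
  | succ k ih =>
    intro t ht
    have hd : HasDerivAt (iteratedDeriv k Complex.Gamma)
        (iteratedDeriv (k + 1) Complex.Gamma t) (t : ℂ) := by
      rw [iteratedDeriv_succ, iteratedDeriv_eq_iterate]
      exact ((analyticOnNhd_Gamma.iterated_deriv k) _ ht).differentiableAt.hasDerivAt
    have hev : ∀ᶠ x : ℝ in 𝓝 t, (x : ℂ) ∈ gammaDomain :=
      Complex.continuous_ofReal.continuousAt.preimage_mem_nhds (isOpen_gammaDomain.mem_nhds ht)
    have h1 : HasDerivAt (iteratedDeriv k Real.Gamma)
        (iteratedDeriv (k + 1) Complex.Gamma t).re t :=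
      hd.real_of_complex.congr_of_eventuallyEq
        (hev.mono fun x hx => by simp [ih hx])
    have h2 : HasDerivAt (fun x : ℝ => ((iteratedDeriv k Real.Gamma x : ℝ) : ℂ))
        (iteratedDeriv (k + 1) Complex.Gamma t) t :=
      hd.comp_ofReal.congr_of_eventuallyEq (hev.mono fun x hx => (ih hx).symm)
    rw [iteratedDeriv_succ (f := Real.Gamma), h1.deriv, h2.unique h1.ofReal_comp, Complex.ofReal_re]

/-- **Hölder's theorem** on a real interval, for the real Gamma function. -/
theorem eq_zero_of_real_interval (n : ℕ) {P : MvPolynomial (Fin (n + 2)) ℝ} {a b : ℝ}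
    (hab : a < b) (h : ∀ t ∈ Set.Ioo a b,
      eval (Fin.cases t fun k : Fin (n + 1) => iteratedDeriv k Real.Gamma t) P = 0) : P = 0 := by
  have hcount : (Set.range fun m : ℕ => -(m : ℝ)).Countable := Set.countable_range _
  obtain ⟨t, htab, ht⟩ := (hcount.dense_compl ℝ).inter_open_nonempty _ isOpen_Ioo
    (Set.nonempty_Ioo.2 hab)
  have hdom : (t : ℂ) ∈ gammaDomain := fun m hm =>
    ht ⟨m, Complex.ofReal_injective (by simp [hm])⟩
  refine map_injective Complex.ofRealHom Complex.ofReal_injective ?_
  rw [map_zero]
  refine eq_zero_of_frequently n hdom ?_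
  have hev : ∀ᶠ x : ℝ in 𝓝[≠] t, x ∈ Set.Ioo a b ∧ (x : ℂ) ∈ gammaDomain :=
    nhdsWithin_le_nhds (Filter.Eventually.and (isOpen_Ioo.eventually_mem htab)
      (Complex.continuous_ofReal.continuousAt.preimage_mem_nhds
        (isOpen_gammaDomain.mem_nhds hdom)))
  have htend : Tendsto (fun x : ℝ => (x : ℂ)) (𝓝[≠] t) (𝓝[≠] (t : ℂ)) :=
    tendsto_nhdsWithin_of_tendsto_nhds_of_eventually_within _
      (Complex.continuous_ofReal.continuousAt.tendsto.mono_left nhdsWithin_le_nhds)
      (eventually_nhdsWithin_of_forall fun x hx => by simpa using hx)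
  refine htend.frequently (hev.frequently.mono fun x hx => ?_)
  have hpt : gammaPoint n (x : ℂ) = Complex.ofRealHom ∘
      (Fin.cases x fun k : Fin (n + 1) => iteratedDeriv k Real.Gamma x) := by
    funext i
    induction i using Fin.cases with
    | zero => simp [gammaPoint]
    | succ k => simp [gammaPoint, iteratedDeriv_Gamma_ofReal k hx.2]
  rw [hpt, eval_map, ← coe_eval₂Hom]
  have hr := congrArg Complex.ofRealHom (h x hx.1)
  rw [eval₂_comp, map_zero] at hr
  exact hr

/-- Constants, `z` and the derivatives of digamma, as polynomials over `ℂ(x)`. -/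
def digammaHom (n : ℕ) :
    MvPolynomial (Fin (n + 1)) ℂ →+* MvPolynomial (Option ℕ) (RatFunc ℂ) :=
  eval₂Hom (C.comp RatFunc.C) (Fin.cases (C RatFunc.X) fun k => X (some (k : ℕ)))

theorem digammaHom_injective (n : ℕ) : Function.Injective (digammaHom n) := by
  have h : digammaHom n = (((rename fun k : Fin n => some (k : ℕ)).toRingHom.comp
      (map (algebraMap (Polynomial ℂ) (RatFunc ℂ)))).comp
      (optionEquivRight ℂ (Fin n)).toRingEquiv.toRingHom).comp
      (rename (finSuccEquiv n)).toRingHom := by
    refine ringHom_ext (fun c => ?_) fun i => ?_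
    · simp [digammaHom]
    · induction i using Fin.cases with
      | zero => simp [digammaHom]
      | succ k => simp [digammaHom]
  rw [h]
  exact (((rename_injective _ fun a b hab => Fin.ext (Option.some_injective _ hab)).comp
    (map_injective _ (RatFunc.algebraMap_injective ℂ))).comp (AlgEquiv.injective _)).comp
    (rename_injective _ (Equiv.injective _))

/-- **Hölder's theorem for digamma**: no algebraic differential equation. -/
theorem eq_zero_of_frequently_digamma (n : ℕ) {P : MvPolynomial (Fin (n + 2)) ℂ} {z₀ : ℂ}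
    (hz₀ : ∀ m : ℕ, z₀ ≠ -m)
    (h : ∃ᶠ z in 𝓝[≠] z₀,
      eval (Fin.cases z fun k : Fin (n + 1) => iteratedDeriv k Complex.digamma z) P = 0) :
    P = 0 := by
  have han : ∀ z ∈ gammaDomain, AnalyticAt ℂ (fun w =>
      eval (Fin.cases w fun k : Fin (n + 1) => iteratedDeriv k Complex.digamma w) P) z := by
    intro z hz
    clear h
    induction P using MvPolynomial.induction_on with
    | C a => simpa using analyticAt_const
    | add p q hp hq => simp only [map_add]; exact hp.fun_add hq
    | mul_X p i hp =>
      simp only [map_mul, eval_X]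
      refine hp.fun_mul ?_
      induction i using Fin.cases with
      | zero => simp only [Fin.cases_zero]; exact analyticAt_id
      | succ k =>
        simp only [Fin.cases_succ, iteratedDeriv_eq_iterate]
        exact (analyticOnNhd_digamma.iterated_deriv k) z hz
  have hon := AnalyticOnNhd.eqOn_zero_of_preconnected_of_frequently_eq_zero han
    isPreconnected_gammaDomain hz₀ h
  have key : eval₂ ratGerm holderPoint (digammaHom (n + 1) P) = axisGerm (fun z =>
      eval (Fin.cases z fun k : Fin (n + 1) => iteratedDeriv k Complex.digamma z) P) := by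
    clear h han hon
    induction P using MvPolynomial.induction_on with
    | C a => simp [digammaHom, ratGerm_C]
    | add p q hp hq =>
      simp only [map_add, eval₂_add, hp, hq]
      rfl
    | mul_X p i hp =>
      have hi : eval₂ ratGerm holderPoint (digammaHom (n + 1) (X i)) = axisGerm (fun z =>
          (Fin.cases z (fun k : Fin (n + 1) => iteratedDeriv k Complex.digamma z) i : ℂ)) := by
        induction i using Fin.cases with
        | zero => simp [digammaHom, ratGerm_X]
        | succ k => simp [digammaHom, holderPoint]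
      simp only [map_mul, eval₂_mul, hp, hi, eval_X]
      rfl
  refine digammaHom_injective (n + 1) ?_
  rw [map_zero]
  refine eq_zero_of_eval_holderPoint ?_
  rw [key, axisGerm_eq (g := fun _ => (0 : ℂ)) fun t ht => hon (ofReal_mem_gammaDomain ht)]
  rfl

end Fermat.Agent.GammaHolder
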