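import Fermat.Agent.GammaHolder.Core
import Mathlib.Analysis.SpecialFunctions.Gamma.Digamma
import Mathlib.Analysis.Complex.CauchyIntegral
import Mathlib.Analysis.Calculus.Deriv.ZPow
import Mathlib.Analysis.Calculus.IteratedDeriv.Lemmas
import Mathlib.Order.Filter.Germ.Basic

/-!
# Gamma and the derivatives of digamma as germs at `+∞`

`ℂ(x)` acts on the germs at `+∞` of complex functions of a real variable, and `Γ`, `ψ`, `ψ'`, …
transform under `t ↦ t + 1` by the substitution of Hölder; so they are algebraically independent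
over `ℂ(x)`.
-/

noncomputable section

namespace Fermat.Agent.GammaHolder

open Filter Topology

/-- The points at which the Gamma function is holomorphic. -/
def gammaDomain : Set ℂ := {z | ∀ m : ℕ, z ≠ -m}

theorem gammaDomain_eq : gammaDomain = {z : ℂ | (Complex.Gamma z)⁻¹ ≠ 0} := by
  ext z
  simp [gammaDomain, Complex.Gamma_eq_zero_iff]

theorem isOpen_gammaDomain : IsOpen gammaDomain := by
  rw [gammaDomain_eq]
  exact isOpen_ne.preimage Complex.differentiable_one_div_Gamma.continuous

theorem ofReal_mem_gammaDomain {t : ℝ} (ht : 0 < t) : (t : ℂ) ∈ gammaDomain := by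
  intro m h
  have h' := congrArg Complex.re h
  simp only [Complex.ofReal_re, Complex.neg_re, Complex.natCast_re] at h'
  have : (0 : ℝ) ≤ m := m.cast_nonneg
  linarith

theorem analyticOnNhd_Gamma : AnalyticOnNhd ℂ Complex.Gamma gammaDomain :=
  DifferentiableOn.analyticOnNhd
    (fun _ hz => (Complex.differentiableAt_Gamma _ hz).differentiableWithinAt) isOpen_gammaDomain

theorem analyticOnNhd_digamma : AnalyticOnNhd ℂ Complex.digamma gammaDomain := fun z hz =>
  (analyticOnNhd_Gamma.deriv z hz).div (analyticOnNhd_Gamma z hz) (Complex.Gamma_ne_zero hz)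

theorem iteratedDeriv_digamma_add_one (k : ℕ) {z : ℂ} (hz : z ∈ gammaDomain) :
    iteratedDeriv k Complex.digamma (z + 1) =
      iteratedDeriv k Complex.digamma z + (-1 : ℂ) ^ k * k.factorial / z ^ (k + 1) := by
  have hev : (fun w => Complex.digamma (w + 1)) =ᶠ[𝓝 z] Complex.digamma + fun w => w⁻¹ :=
    Filter.eventuallyEq_of_mem (isOpen_gammaDomain.mem_nhds hz)
      fun w hw => Complex.digamma_apply_add_one w hw
  have hz0 : z ≠ 0 := by simpa using hz 0
  have h := hev.iteratedDeriv_eq k
  rw [iteratedDeriv_comp_add_const, iteratedDeriv_add (analyticOnNhd_digamma z hz).contDiffAt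
    (contDiffAt_inv ℂ hz0)] at h
  simp only at h
  rw [h, add_right_inj, iteratedDeriv_eq_iterate, iter_deriv_inv, div_eq_mul_inv, ← zpow_natCast z,
    ← zpow_neg]
  congr 2
  push_cast
  ring

/-- The germs at `+∞` of complex functions of a real variable. -/
abbrev FuncGerm : Type := Germ (atTop : Filter ℝ) ℂ

/-- The germ of a complex function along the real axis. -/
def axisGerm (f : ℂ → ℂ) : FuncGerm := ((fun t : ℝ => f t) : FuncGerm)

theorem axisGerm_eq {f g : ℂ → ℂ} (h : ∀ t : ℝ, 0 < t → f t = g t) : axisGerm f = axisGerm g :=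
  Germ.coe_eq.2 ((eventually_gt_atTop 0).mono h)

theorem isUnit_axisGerm {f : ℂ → ℂ} (h : ∀ᶠ t : ℝ in atTop, f t ≠ 0) : IsUnit (axisGerm f) :=
  IsUnit.of_mul_eq_one (axisGerm fun z => (f z)⁻¹)
    (Germ.coe_eq.2 (h.mono fun _ ht => mul_inv_cancel₀ ht))

/-- The polynomials as germs. -/
def polyGerm : Polynomial ℂ →+* FuncGerm :=
  (Germ.coeRingHom atTop).comp (RingHom.pi fun t : ℝ => Polynomial.evalRingHom (t : ℂ))

theorem polyGerm_apply (p : Polynomial ℂ) : polyGerm p = axisGerm fun z => p.eval z := rfl

theorem eventually_eval_ne_zero {p : Polynomial ℂ} (hp : p ≠ 0) :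
    ∀ᶠ t : ℝ in atTop, p.eval (t : ℂ) ≠ 0 := by
  have hfin : {t : ℝ | p.eval (t : ℂ) = 0}.Finite :=
    (Polynomial.finite_setOfPred_isRoot hp).preimage Complex.ofReal_injective.injOn
  obtain ⟨B, hB⟩ := hfin.bddAbove
  exact (eventually_gt_atTop B).mono fun t ht h => absurd (hB h) (not_le.2 ht)

/-- The rational functions as germs. -/
def ratGerm : RatFunc ℂ →+* FuncGerm :=
  IsLocalization.lift (M := nonZeroDivisors (Polynomial ℂ)) (g := polyGerm) fun q => by
    rw [polyGerm_apply]
    exact isUnit_axisGerm (eventually_eval_ne_zero (nonZeroDivisors.coe_ne_zero q))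

theorem ratGerm_algebraMap (p : Polynomial ℂ) :
    ratGerm (algebraMap (Polynomial ℂ) (RatFunc ℂ) p) = axisGerm fun z => p.eval z := by
  rw [ratGerm, IsLocalization.lift_eq, polyGerm_apply]

theorem ratGerm_C (c : ℂ) : ratGerm (RatFunc.C c) = axisGerm fun _ => c := by
  rw [← RatFunc.algebraMap_C, ratGerm_algebraMap]
  simp

theorem ratGerm_X : ratGerm RatFunc.X = axisGerm fun z => z := by
  rw [← RatFunc.algebraMap_X, ratGerm_algebraMap]
  simp

theorem ratGerm_polygammaJump (k : ℕ) :
    ratGerm (polygammaJump k) =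
      axisGerm fun z => (-1 : ℂ) ^ k * k.factorial / z ^ (k + 1) := by
  have hu : IsUnit (ratGerm (RatFunc.X ^ (k + 1))) :=
    (isUnit_iff_ne_zero.2 (pow_ne_zero _ RatFunc.X_ne_zero)).map ratGerm
  refine hu.mul_left_injective ?_
  dsimp only
  rw [← map_mul, polygammaJump, div_mul_cancel₀ _ (pow_ne_zero _ RatFunc.X_ne_zero), ratGerm_C,
    map_pow, ratGerm_X]
  refine Germ.coe_eq.2 ((eventually_gt_atTop 0).mono fun t ht => ?_)
  have h0 : (t : ℂ) ≠ 0 := by exact_mod_cast ht.ne'
  simp [h0]

/-- The translation `t ↦ t + 1` of germs. -/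
def germShift : FuncGerm →+* FuncGerm where
  toFun f := f.compTendsto (fun t : ℝ => t + 1) (tendsto_atTop_add_const_right _ 1 tendsto_id)
  map_one' := rfl
  map_zero' := rfl
  map_mul' f g := Germ.inductionOn₂ f g fun _ _ => rfl
  map_add' f g := Germ.inductionOn₂ f g fun _ _ => rfl

theorem germShift_axisGerm (f : ℂ → ℂ) :
    germShift (axisGerm f) = axisGerm fun z => f (z + 1) :=
  Germ.coe_eq.2 (Eventually.of_forall fun t => by simp)

theorem germShift_comp_ratGerm : germShift.comp ratGerm = ratGerm.comp shiftHom := by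
  refine IsLocalization.ringHom_ext (nonZeroDivisors (Polynomial ℂ)) (RingHom.ext fun p => ?_)
  simp only [RingHom.comp_apply, ratGerm_algebraMap, shiftHom_algebraMap, germShift_axisGerm,
    Polynomial.taylor_eval]

/-- The Gamma function and the derivatives of the digamma function as germs. -/
def holderPoint : Option ℕ → FuncGerm
  | none => axisGerm Complex.Gamma
  | some k => axisGerm (iteratedDeriv k Complex.digamma)

theorem germShift_holderPoint (i : Option ℕ) :
    germShift (holderPoint i) = MvPolynomial.eval₂ ratGerm holderPoint (holderVar i) := by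
  cases i with
  | none =>
    simp only [holderVar, MvPolynomial.eval₂_mul, MvPolynomial.eval₂_C, MvPolynomial.eval₂_X,
      ratGerm_X, holderPoint, germShift_axisGerm]
    refine axisGerm_eq (g := fun z => z * Complex.Gamma z) fun t ht => ?_
    exact Complex.Gamma_add_one _ (by exact_mod_cast ht.ne')
  | some k =>
    simp only [holderVar, MvPolynomial.eval₂_add, MvPolynomial.eval₂_C, MvPolynomial.eval₂_X,
      ratGerm_polygammaJump, holderPoint, germShift_axisGerm]
    exact axisGerm_eq (g := fun z => iteratedDeriv k Complex.digamma z +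
      (-1 : ℂ) ^ k * k.factorial / z ^ (k + 1))
      fun t ht => iteratedDeriv_digamma_add_one k (ofReal_mem_gammaDomain ht)

/-- **Gamma and the derivatives of digamma are algebraically independent over `ℂ(x)`**, as germs
at `+∞`. -/
theorem eq_zero_of_eval_holderPoint {P : MvPolynomial (Option ℕ) (RatFunc ℂ)}
    (hP : MvPolynomial.eval₂ ratGerm holderPoint P = 0) : P = 0 :=
  eq_zero_of_eval_eq_zero ratGerm germShift holderPoint germShift_comp_ratGerm
    germShift_holderPoint
    (isUnit_axisGerm ((eventually_gt_atTop 0).mono fun _ ht =>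
      Complex.Gamma_ne_zero (ofReal_mem_gammaDomain ht))) P hP

end Fermat.Agent.GammaHolder
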