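import Fermat.Agent.GammaHolder.Shift
import Mathlib.Algebra.MvPolynomial.PDeriv
import Mathlib.Data.Finsupp.Weight
import Mathlib.Data.Finset.Option

/-!
# Polynomials invariant under the substitution of Hölder

Let `τ` be the substitution `x ↦ x + 1`, `Z ↦ x Z`, `Yₖ ↦ Yₖ + (-1)ᵏ k! / x^(k + 1)` of
`ℂ(x)[Z, Y₀, Y₁, …]`.  An ideal of relations which is stable under `τ` and does not contain a
power of `Z` is zero: this is the algebraic core of Hölder's theorem.  The variables are indexed
by `Option ℕ`, `none` standing for `Z` and `some k` for `Yₖ`.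
-/

noncomputable section

namespace Fermat.Agent.GammaHolder

open MvPolynomial

/-- The term `(-1)ᵏ k! / x^(k + 1)` by which the `k`-th derivative of the digamma function
changes under `z ↦ z + 1`. -/
def polygammaJump (k : ℕ) : RatFunc ℂ :=
  RatFunc.C ((-1 : ℂ) ^ k * (k.factorial : ℂ)) / RatFunc.X ^ (k + 1)

/-- The images of the variables under the substitution of Hölder. -/
def holderVar : Option ℕ → MvPolynomial (Option ℕ) (RatFunc ℂ)
  | none => C RatFunc.X * X none
  | some k => X (some k) + C (polygammaJump k)

/-- The substitution of Hölder. -/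
def holderSubst :
    MvPolynomial (Option ℕ) (RatFunc ℂ) →+* MvPolynomial (Option ℕ) (RatFunc ℂ) :=
  eval₂Hom (C.comp shiftHom) holderVar

@[simp]
theorem holderSubst_C (c : RatFunc ℂ) : holderSubst (C c) = C (shiftHom c) := by
  simp [holderSubst]

@[simp]
theorem holderSubst_X (i : Option ℕ) : holderSubst (X i) = holderVar i := by
  simp [holderSubst]

/-- All monomials of degree at least `n` have coefficient zero. -/
def Below (n : ℕ) (P : MvPolynomial (Option ℕ) (RatFunc ℂ)) : Prop :=
  ∀ e : Option ℕ →₀ ℕ, n ≤ e.degree → coeff e P = 0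

variable {A B L M P Q : MvPolynomial (Option ℕ) (RatFunc ℂ)} {m n : ℕ}

theorem Below.mono (h : Below m P) (hmn : m ≤ n) : Below n P := fun e he => h e (hmn.trans he)

theorem Below.add (hP : Below n P) (hQ : Below n Q) : Below n (P + Q) := fun e he => by
  rw [coeff_add, hP e he, hQ e he, add_zero]

theorem Below.sub (hP : Below n P) (hQ : Below n Q) : Below n (P - Q) := fun e he => by
  rw [coeff_sub, hP e he, hQ e he, sub_zero]

theorem Below.C_mul (hP : Below n P) (c : RatFunc ℂ) : Below n (C c * P) := fun e he => by
  rw [coeff_C_mul, hP e he, mul_zero]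

theorem Below.mul (hP : Below m P) (hQ : Below (n + 1) Q) : Below (m + n) (P * Q) := by
  classical
  intro e he
  rw [coeff_mul]
  refine Finset.sum_eq_zero fun ij hij => ?_
  rw [Finset.mem_antidiagonal] at hij
  by_cases hi : m ≤ ij.1.degree
  · rw [hP _ hi, zero_mul]
  · have : e.degree = ij.1.degree + ij.2.degree := by rw [← hij, map_add]
    rw [hQ _ (by omega), mul_zero]

theorem below_monomial {d : Option ℕ →₀ ℕ} (h : d.degree < n) (c : RatFunc ℂ) :
    Below n (monomial d c) := fun e he => by
  classical
  rw [coeff_monomial, if_neg]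
  rintro rfl
  omega

/-- `L` is the part of degree `n` of `A`, and `A` has degree at most `n`. -/
def Lead (A L : MvPolynomial (Option ℕ) (RatFunc ℂ)) (n : ℕ) : Prop :=
  Below n (A - L) ∧ Below (n + 1) L

theorem Lead.below (h : Lead A L n) : Below (n + 1) A := by
  simpa using (h.1.mono n.le_succ).add h.2

theorem Lead.mul (hA : Lead A L m) (hB : Lead B M n) : Lead (A * B) (L * M) (m + n) := by
  constructor
  · have h1 := hA.1.mul hB.below
    have h2 := hB.1.mul hA.2
    rw [show A * B - L * M = (A - L) * B + (B - M) * L by ring]
    exact h1.add (by rwa [add_comm m n])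
  · simpa [add_assoc, add_comm, add_left_comm] using hA.2.mul (n := n) (m := m + 1) hB.2

theorem lead_one : Lead (1 : MvPolynomial (Option ℕ) (RatFunc ℂ)) 1 0 := by
  refine ⟨fun e _ => by simp, ?_⟩
  simpa using below_monomial (n := 1) (d := (0 : Option ℕ →₀ ℕ)) (by simp) 1

theorem Lead.pow (hA : Lead A L n) : ∀ k : ℕ, Lead (A ^ k) (L ^ k) (k * n)
  | 0 => by simpa using lead_one
  | k + 1 => by simpa [pow_succ, add_mul] using (hA.pow k).mul hA

theorem lead_holderVar (i : Option ℕ) :
    Lead (holderVar i) (monomial (Finsupp.single i 1) (RatFunc.X ^ Finsupp.single i 1 none)) 1 := by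
  refine ⟨?_, below_monomial (by simp) _⟩
  match i with
  | none => simp [holderVar, C_mul_X_eq_monomial, Below]
  | some k =>
    have h : holderVar (some k) - monomial (Finsupp.single (some k) 1)
        (RatFunc.X ^ Finsupp.single (some k) 1 none) = monomial 0 (polygammaJump k) := by
      simp [holderVar, X]
    rw [h]
    exact below_monomial (by simp) _

theorem lead_holderSubst_monomial (e : Option ℕ →₀ ℕ) :
    Lead (holderSubst (monomial e 1)) (monomial e (RatFunc.X ^ e none)) e.degree := by
  induction e using Finsupp.induction_linear with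
  | zero => simpa using lead_one
  | add f g hf hg =>
    have h := hf.mul hg
    rw [← map_mul, monomial_mul, one_mul, monomial_mul, ← pow_add] at h
    simpa using h
  | single i k =>
    have h := (lead_holderVar i).pow k
    rw [← holderSubst_X, ← map_pow, X_pow_eq_monomial, monomial_pow, ← pow_mul, mul_one] at h
    convert h using 3 <;> simp [Finsupp.single_apply, mul_comm]

theorem holderSubst_eq_sum (P : MvPolynomial (Option ℕ) (RatFunc ℂ)) :
    holderSubst P =
      ∑ e ∈ P.support, C (shiftHom (coeff e P)) * holderSubst (monomial e 1) := by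
  conv_lhs => rw [as_sum P]
  rw [map_sum]
  refine Finset.sum_congr rfl fun e _ => ?_
  rw [← holderSubst_C, ← map_mul, C_mul_monomial, mul_one]

/-- The substitution does not raise the degree. -/
theorem below_holderSubst (hP : Below (n + 1) P) : Below (n + 1) (holderSubst P) := by
  intro d hd
  rw [holderSubst_eq_sum, coeff_sum]
  refine Finset.sum_eq_zero fun e he => ?_
  have hle : e.degree ≤ n := by
    by_contra h
    exact mem_support_iff.1 he (hP e (by omega))
  rw [coeff_C_mul, ((lead_holderSubst_monomial e).below.mono (by omega)) d hd, mul_zero]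

/-- The action of the substitution on the top degree coefficients. -/
theorem coeff_holderSubst (hP : Below (n + 1) P) {d : Option ℕ →₀ ℕ} (hd : d.degree = n) :
    coeff d (holderSubst P) = shiftHom (coeff d P) * RatFunc.X ^ d none := by
  classical
  rw [holderSubst_eq_sum, coeff_sum, Finset.sum_eq_single d]
  · have h := (lead_holderSubst_monomial d).1 d le_rfl
    rw [coeff_sub, sub_eq_zero, coeff_monomial, if_pos rfl] at h
    rw [coeff_C_mul, h]
  · intro e he hne
    have hle : e.degree ≤ n := by
      by_contra h
      exact mem_support_iff.1 he (hP e (by omega))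
    have h := (lead_holderSubst_monomial e).1 d (by omega)
    rw [coeff_sub, sub_eq_zero, coeff_monomial, if_neg hne] at h
    rw [coeff_C_mul, h, mul_zero]
  · intro hd'
    rw [notMem_support_iff.1 hd', map_zero, C_0, zero_mul, coeff_zero]

/-- The factor of the chain rule for the substitution. -/
def holderFactor (i : Option ℕ) : RatFunc ℂ := RatFunc.X ^ Finsupp.single i 1 none

theorem pderiv_holderVar (i j : Option ℕ) :
    pderiv i (holderVar j) = C (holderFactor i) * holderSubst (pderiv i (X j)) := by
  classical
  rcases eq_or_ne j i with rfl | hne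
  · cases j <;> simp [holderVar, holderFactor]
  · cases j <;> simp [holderVar, holderFactor, pderiv_X_of_ne hne]

/-- The chain rule for the substitution. -/
theorem pderiv_holderSubst (i : Option ℕ) (P : MvPolynomial (Option ℕ) (RatFunc ℂ)) :
    pderiv i (holderSubst P) = C (holderFactor i) * holderSubst (pderiv i P) := by
  induction P using MvPolynomial.induction_on with
  | C a => simp
  | add p q hp hq => simp only [map_add, hp, hq, mul_add]
  | mul_X p j hp =>
    rw [map_mul, pderiv_mul, pderiv_mul, hp, holderSubst_X, pderiv_holderVar, map_add, map_mul,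
      map_mul, holderSubst_X]
    ring

end Fermat.Agent.GammaHolder
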