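import Fermat.Agent.GammaHolder.Derivatives
import Mathlib.Algebra.MvPolynomial.Funext
import Mathlib.Algebra.MvPolynomial.Equiv
import Mathlib.Algebra.MvPolynomial.Rename
import Mathlib.Analysis.Analytic.IsolatedZeros
import Mathlib.Analysis.Normed.Module.Connected
import Mathlib.LinearAlgebra.Complex.FiniteDimensional

/-!
# No relations between `z`, `Γ(z)`, `Γ'(z)`, …

The change of variables `Γ^(k) = Γ Bₖ(ψ, ψ', …)` is triangular, so it turns the independence of
`Γ, ψ, ψ', …` into that of `Γ, Γ', …`; the identity theorem transports it from the positive axis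
to any point of the domain of holomorphy.
-/

noncomputable section

namespace Fermat.Agent.GammaHolder

open MvPolynomial Filter Topology

theorem ringHom_aeval_int {R S : Type*} [CommRing R] [CommRing S] [Algebra ℤ R] [Algebra ℤ S]
    (f : R →+* S) (g : ℕ → R)
    (P : MvPolynomial ℕ ℤ) : f (aeval g P) = aeval (fun i => f (g i)) P := by
  induction P using MvPolynomial.induction_on with
  | C a => simp
  | add p q hp hq => simp only [map_add, hp, hq]
  | mul_X p i hp => simp only [map_mul, aeval_X, hp]

/-- The polynomial `Z · Bₖ(Y)` standing for the `k`-th derivative of Gamma. -/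
def derivVar (k : ℕ) : MvPolynomial (Option ℕ) (RatFunc ℂ) :=
  X none * aeval (fun i => X (some i)) (bellPoly k)

/-- The substitution `Wₖ ↦ Z · Bₖ(Y)`. -/
def derivSubst (n : ℕ) :
    MvPolynomial (Fin n) (RatFunc ℂ) →+* MvPolynomial (Option ℕ) (RatFunc ℂ) :=
  eval₂Hom C fun k => derivVar k

theorem derivSubst_injective (n : ℕ) : Function.Injective (derivSubst (n + 1)) := by
  rw [injective_iff_map_eq_zero]
  intro P hP
  suffices h : P * X 0 = 0 from (mul_eq_zero.1 h).resolve_right (X_ne_zero 0)
  refine funext fun w => ?_
  rw [map_zero, map_mul, eval_X]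
  by_cases hw : w 0 = 0
  · rw [hw, mul_zero]
  obtain ⟨y, hy⟩ := exists_bellPoly_eq
    (fun k => if h : k + 1 < n + 1 then w ⟨k + 1, h⟩ / w 0 else 0) n
  set p : Option ℕ → RatFunc ℂ := fun o => o.elim (w 0) y with hp
  have hcomp : (eval p).comp (derivSubst (n + 1)) = eval w := by
    refine ringHom_ext (fun c => ?_) fun k => ?_
    · simp [derivSubst]
    · rcases k with ⟨k, hk⟩
      simp only [RingHom.comp_apply, derivSubst, eval₂Hom_X', derivVar, map_mul,
        ringHom_aeval_int, eval_X, hp, Option.elim_none, Option.elim_some]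
      cases k with
      | zero => simp [bellPoly]
      | succ k =>
        rw [show (aeval fun i => y i) (bellPoly (k + 1)) = aeval y (bellPoly (k + 1)) from rfl,
          hy k (by omega), dif_pos hk, mul_div_cancel₀ _ hw]
  rw [← hcomp, RingHom.comp_apply, hP, map_zero, zero_mul]

/-- Constants, `z` and the derivatives of Gamma, as polynomials over `ℂ(x)`. -/
def relationHom (n : ℕ) :
    MvPolynomial (Fin (n + 1)) ℂ →+* MvPolynomial (Option ℕ) (RatFunc ℂ) :=
  eval₂Hom (C.comp RatFunc.C) (Fin.cases (C RatFunc.X) fun k => derivVar k)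

theorem relationHom_injective (n : ℕ) : Function.Injective (relationHom (n + 1)) := by
  have h : relationHom (n + 1) = (((derivSubst (n + 1)).comp
      (map (algebraMap (Polynomial ℂ) (RatFunc ℂ)))).comp
      (optionEquivRight ℂ (Fin (n + 1))).toRingEquiv.toRingHom).comp
      (rename (finSuccEquiv (n + 1))).toRingHom := by
    refine ringHom_ext (fun c => ?_) fun i => ?_
    · simp [relationHom, derivSubst]
    · induction i using Fin.cases with
      | zero => simp [relationHom, derivSubst]
      | succ k => simp [relationHom, derivSubst]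
  rw [h]
  exact (((derivSubst_injective n).comp
    (map_injective _ (RatFunc.algebraMap_injective ℂ))).comp (AlgEquiv.injective _)).comp
    (rename_injective _ (Equiv.injective _))

/-- The point `(z, Γ z, Γ' z, …, Γ^(n) z)`. -/
def gammaPoint (n : ℕ) (z : ℂ) : Fin (n + 2) → ℂ :=
  Fin.cases z fun k : Fin (n + 1) => iteratedDeriv k Complex.Gamma z

theorem axisGerm_aeval (f : ℕ → ℂ → ℂ) (P : MvPolynomial ℕ ℤ) :
    axisGerm (fun z => aeval (fun i => f i z) P) = aeval (fun i => axisGerm (f i)) P := by
  induction P using MvPolynomial.induction_on with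
  | C a => simp [axisGerm]
  | add p q hp hq =>
    simp only [map_add, ← hp, ← hq]
    rfl
  | mul_X p i hp =>
    simp only [map_mul, aeval_X, ← hp]
    rfl

theorem eval_relationHom (n : ℕ) (P : MvPolynomial (Fin (n + 2)) ℂ) :
    eval₂ ratGerm holderPoint (relationHom (n + 1) P) =
      axisGerm fun z => eval (gammaPoint n z) P := by
  induction P using MvPolynomial.induction_on with
  | C a => simp [relationHom, ratGerm_C]
  | add p q hp hq =>
    simp only [map_add, eval₂_add, hp, hq]
    rfl
  | mul_X p i hp =>
    have hi : eval₂ ratGerm holderPoint (relationHom (n + 1) (X i)) =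
        axisGerm fun z => gammaPoint n z i := by
      induction i using Fin.cases with
      | zero => simp [relationHom, gammaPoint, ratGerm_X]
      | succ k =>
        rw [← coe_eval₂Hom]
        simp only [relationHom, eval₂Hom_X', Fin.cases_succ, derivVar, map_mul, gammaPoint,
          ringHom_aeval_int]
        simp only [holderPoint, ← axisGerm_aeval]
        exact axisGerm_eq (f := fun z => Complex.Gamma z *
            aeval (fun i => iteratedDeriv i Complex.digamma z) (bellPoly k))
          fun t ht => (iteratedDeriv_Gamma_eq k (ofReal_mem_gammaDomain ht)).symm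
    simp only [map_mul, eval₂_mul, hp, hi, eval_X]
    rfl

theorem isPreconnected_gammaDomain : IsPreconnected gammaDomain := by
  have hc : (Set.range fun m : ℕ => -(m : ℂ))ᶜ = gammaDomain := by
    ext z
    simp [gammaDomain, eq_comm]
  rw [← hc]
  exact ((Set.countable_range _).isPathConnected_compl_of_one_lt_rank
    (by rw [Complex.rank_real_complex]; exact_mod_cast Nat.one_lt_two)).isConnected.isPreconnected

theorem analyticAt_eval_gammaPoint (n : ℕ) (P : MvPolynomial (Fin (n + 2)) ℂ) {z : ℂ}
    (hz : z ∈ gammaDomain) : AnalyticAt ℂ (fun w => eval (gammaPoint n w) P) z := by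
  induction P using MvPolynomial.induction_on with
  | C a => simpa using analyticAt_const
  | add p q hp hq => simp only [map_add]; exact hp.fun_add hq
  | mul_X p i hp =>
    simp only [map_mul, eval_X]
    refine hp.fun_mul ?_
    induction i using Fin.cases with
    | zero => simp only [gammaPoint, Fin.cases_zero]; exact analyticAt_id
    | succ k =>
      simp only [gammaPoint, Fin.cases_succ, iteratedDeriv_eq_iterate]
      exact (analyticOnNhd_Gamma.iterated_deriv k) z hz

/-- **Hölder's theorem**, accumulation form: a polynomial relation between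
`z, Γ(z), …, Γ^(n)(z)` holding on a set accumulating at a point of holomorphy is trivial. -/
theorem eq_zero_of_frequently (n : ℕ) {P : MvPolynomial (Fin (n + 2)) ℂ} {z₀ : ℂ}
    (hz₀ : ∀ m : ℕ, z₀ ≠ -m) (h : ∃ᶠ z in 𝓝[≠] z₀, eval (gammaPoint n z) P = 0) : P = 0 := by
  have hon : Set.EqOn (fun w => eval (gammaPoint n w) P) 0 gammaDomain :=
    AnalyticOnNhd.eqOn_zero_of_preconnected_of_frequently_eq_zero
      (fun z hz => analyticAt_eval_gammaPoint n P hz) isPreconnected_gammaDomain hz₀ h
  refine relationHom_injective n ?_
  rw [map_zero]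
  refine eq_zero_of_eval_holderPoint ?_
  rw [eval_relationHom, axisGerm_eq (g := fun _ => (0 : ℂ))
    fun t ht => hon (ofReal_mem_gammaDomain ht)]
  rfl

end Fermat.Agent.GammaHolder
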