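import Mathlib.FieldTheory.RatFunc.AsPolynomial
import Mathlib.Algebra.Polynomial.Taylor
import Mathlib.Algebra.CharZero.Infinite
import Mathlib.Analysis.Complex.Polynomial.Basic

/-!
# The shift on rational functions

The automorphism `x ↦ x + 1` of `ℂ(x)` and two facts on first order difference equations:
`c(x + 1) = xᵏ c(x)` has only the obvious solutions, and a non-trivial combination of the
negative powers of `x` is never of the form `f(x + 1) - f(x)`.  These are the algebraic input
of Hölder's theorem on the Gamma function.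
-/

noncomputable section

namespace Fermat.Agent.GammaHolder

open Polynomial

/-- The ring endomorphism `f(x) ↦ f(x + 1)` of `ℂ(x)`. -/
def shiftHom : RatFunc ℂ →+* RatFunc ℂ :=
  IsFractionRing.lift (g := (algebraMap ℂ[X] (RatFunc ℂ)).comp (taylorAlgHom 1).toRingHom)
    ((RatFunc.algebraMap_injective ℂ).comp (taylor_injective 1))

theorem shiftHom_algebraMap (p : ℂ[X]) :
    shiftHom (algebraMap ℂ[X] (RatFunc ℂ) p) = algebraMap ℂ[X] (RatFunc ℂ) (taylor 1 p) :=
  IsFractionRing.lift_algebraMap _ p

@[simp]
theorem shiftHom_C (a : ℂ) : shiftHom (RatFunc.C a) = RatFunc.C a := by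
  rw [← RatFunc.algebraMap_C, shiftHom_algebraMap, taylor_C]

theorem shiftHom_X : shiftHom RatFunc.X = RatFunc.X + 1 := by
  rw [← RatFunc.algebraMap_X, shiftHom_algebraMap, taylor_X, map_add, map_one, map_one]

theorem shiftHom_num_denom (f : RatFunc ℂ) :
    shiftHom f = algebraMap _ _ (taylor 1 f.num) / algebraMap _ _ (taylor 1 f.denom) := by
  conv_lhs => rw [← RatFunc.num_div_denom f]
  rw [map_div₀, shiftHom_algebraMap, shiftHom_algebraMap]

theorem algebraMap_taylor_denom_ne_zero (f : RatFunc ℂ) :
    algebraMap ℂ[X] (RatFunc ℂ) (taylor 1 f.denom) ≠ 0 := by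
  rw [map_ne_zero_iff _ (RatFunc.algebraMap_injective ℂ), map_ne_zero_iff _ (taylor_injective 1)]
  exact f.denom_ne_zero

theorem num_eval_ne_zero {f : RatFunc ℂ} {z : ℂ} (hz : f.denom.eval z = 0) :
    f.num.eval z ≠ 0 := by
  intro h
  obtain ⟨u, v, huv⟩ := f.isCoprime_num_denom
  simpa [eval_add, eval_mul, h, hz] using congrArg (eval z) huv

/-- A monic polynomial over `ℂ` without roots is `1`. -/
theorem eq_one_of_no_root {q : ℂ[X]} (hq : q.Monic) (h : ∀ z, q.eval z ≠ 0) : q = 1 := by
  by_contra hne
  have hd : q.degree ≠ 0 := by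
    intro h0
    exact hne (eq_one_of_monic_natDegree_zero hq (natDegree_eq_of_degree_eq_some h0))
  obtain ⟨z, hz⟩ := IsAlgClosed.exists_root q hd
  exact h z hz

/-- The translates `z + n * s` of a root cannot all be roots. -/
theorem not_forall_translate_root {q : ℂ[X]} (hq : q ≠ 0) (z s : ℂ) (hs : s ≠ 0) :
    ¬ ∀ n : ℕ, q.eval (z + n * s) = 0 := by
  intro h
  have hinj : Function.Injective fun n : ℕ => z + n * s := by
    intro a b hab
    simpa [hs] using hab
  exact (Set.infinite_range_of_injective hinj).mono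
    (by rintro _ ⟨n, rfl⟩; exact h n) (finite_setOfPred_isRoot hq)

/-- A periodic polynomial is constant. -/
theorem eq_C_of_taylor_eq {p : ℂ[X]} (h : taylor 1 p = p) : p = C (p.eval 0) := by
  have hn : ∀ n : ℕ, p.eval (n : ℂ) = p.eval 0 := by
    intro n
    induction n with
    | zero => simp
    | succ n ih =>
      rw [← ih, Nat.cast_succ, ← taylor_eval, h]
  refine eq_of_infinite_eval_eq _ _ ((Set.infinite_range_of_injective
    (Nat.cast_injective (R := ℂ))).mono ?_)
  rintro _ ⟨n, rfl⟩
  simpa using hn n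

/-- **The equation `c(x + 1) = xᵏ c(x)`**: the only non-zero solutions are the constants, with
`k = 0`. -/
theorem shift_eq_pow_mul {c : RatFunc ℂ} {k : ℕ} (h : shiftHom c = RatFunc.X ^ k * c)
    (hc : c ≠ 0) : k = 0 ∧ ∃ a : ℂ, a ≠ 0 ∧ c = RatFunc.C a := by
  have hq := algebraMap_taylor_denom_ne_zero c
  have hd : algebraMap ℂ[X] (RatFunc ℂ) c.denom ≠ 0 :=
    (map_ne_zero_iff _ (RatFunc.algebraMap_injective ℂ)).2 c.denom_ne_zero
  have heq : taylor 1 c.num * c.denom = X ^ k * c.num * taylor 1 c.denom := by
    apply RatFunc.algebraMap_injective ℂ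
    have h' := h
    rw [shiftHom_num_denom] at h'
    conv at h' => rhs; rw [← RatFunc.num_div_denom c]
    rw [mul_div_assoc', div_eq_div_iff hq hd] at h'
    simpa [map_mul, map_pow] using h'
  have hdown : ∀ z, c.denom.eval (z + 1) = 0 → c.denom.eval z = 0 := by
    intro z hz
    have h' := congrArg (eval z) heq
    rw [eval_mul, eval_mul, taylor_eval, taylor_eval, hz, mul_zero] at h'
    exact (mul_eq_zero.1 h').resolve_left (num_eval_ne_zero hz)
  have hone : c.denom = 1 := by
    refine eq_one_of_no_root c.monic_denom fun z hz => ?_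
    refine not_forall_translate_root c.denom_ne_zero z (-1) (by norm_num) fun n => ?_
    induction n with
    | zero => simpa using hz
    | succ n ih => exact hdown _ (by push_cast; ring_nf at ih ⊢; exact ih)
  rw [hone, mul_one, taylor_one, C_1, mul_one] at heq
  have hp : c.num ≠ 0 := RatFunc.num_ne_zero hc
  have hk : k = 0 := by
    have h' := congrArg natDegree heq
    rw [natDegree_taylor, natDegree_mul (pow_ne_zero _ X_ne_zero) hp, natDegree_X_pow] at h'
    omega
  subst hk
  rw [pow_zero, one_mul] at heq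
  obtain ⟨a, ha⟩ : ∃ a, c.num = C a := ⟨_, eq_C_of_taylor_eq heq⟩
  refine ⟨rfl, a, fun h0 => hp (by rw [ha, h0, C_0]), ?_⟩
  conv_lhs => rw [← RatFunc.num_div_denom c, hone, ha]
  simp

/-- **No telescoping of negative powers**: if `f(x + 1) - f(x)` is a combination of the
`x ^ (-(k + 1))` with constant coefficients, all coefficients vanish. -/
theorem coeff_eq_zero_of_shift_sub {f : RatFunc ℂ} {N : ℕ} {a : ℕ → ℂ}
    (h : shiftHom f - f = ∑ k ∈ Finset.range N, RatFunc.C (a k) / RatFunc.X ^ (k + 1)) :
    ∀ k < N, a k = 0 := by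
  set g : ℂ[X] := ∑ k ∈ Finset.range N, C (a k) * X ^ (N - (k + 1)) with hg
  have hXN : (RatFunc.X : RatFunc ℂ) ≠ 0 := RatFunc.X_ne_zero
  have hd : algebraMap ℂ[X] (RatFunc ℂ) f.denom ≠ 0 :=
    (map_ne_zero_iff _ (RatFunc.algebraMap_injective ℂ)).2 f.denom_ne_zero
  have hsum : (∑ k ∈ Finset.range N, RatFunc.C (a k) / RatFunc.X ^ (k + 1)) * RatFunc.X ^ N =
      algebraMap ℂ[X] (RatFunc ℂ) g := by
    simp only [hg, map_sum, map_mul, map_pow, RatFunc.algebraMap_C, RatFunc.algebraMap_X,
      Finset.sum_mul]
    refine Finset.sum_congr rfl fun k hk => ?_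
    have hk' : N = (k + 1) + (N - (k + 1)) := by
      have := Finset.mem_range.1 hk
      omega
    conv_lhs => arg 2; rw [hk', pow_add]
    field_simp
  have heq : (taylor 1 f.num * f.denom - f.num * taylor 1 f.denom) * X ^ N =
      g * (taylor 1 f.denom * f.denom) := by
    apply RatFunc.algebraMap_injective ℂ
    have hq := algebraMap_taylor_denom_ne_zero f
    have hf : (shiftHom f - f) * RatFunc.X ^ N = algebraMap _ _ g := by rw [h, hsum]
    rw [shiftHom_num_denom] at hf
    conv at hf => lhs; arg 1; arg 2; rw [← RatFunc.num_div_denom f]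
    rw [div_sub_div _ _ hq hd, div_mul_eq_mul_div, div_eq_iff (mul_ne_zero hq hd)] at hf
    simp only [map_mul, map_sub, map_pow, RatFunc.algebraMap_X]
    rw [← hf]
    ring
  -- at a root `z` of `denom` that is not `0`, `z + 1` is a root, and conversely
  have hz : ∀ z : ℂ, z ≠ 0 → (f.denom.eval z = 0 ↔ f.denom.eval (z + 1) = 0) := by
    intro z hz0
    have h' := congrArg (eval z) heq
    simp only [eval_mul, eval_sub, taylor_eval, eval_pow, eval_X] at h'
    constructor <;> intro h0 <;>
      simp only [h0, mul_zero, zero_mul, zero_sub, sub_zero, neg_mul, neg_eq_zero,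
        mul_eq_zero, pow_eq_zero_iff', hz0, num_eval_ne_zero h0, false_and, false_or,
        or_false] at h' <;>
      exact h'
  have hone : f.denom = 1 := by
    refine eq_one_of_no_root f.monic_denom fun z hz0 => ?_
    by_cases hm : ∃ m : ℕ, z = -m
    · obtain ⟨m, rfl⟩ := hm
      refine not_forall_translate_root f.denom_ne_zero (-(m : ℂ)) (-1) (by norm_num) fun n => ?_
      induction n with
      | zero => simpa using hz0
      | succ n ih =>
        have hne : -(m : ℂ) + ((n + 1 : ℕ) : ℂ) * -1 ≠ 0 := by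
          intro h0
          have : ((m + (n + 1) : ℕ) : ℂ) = 0 := by push_cast at h0 ⊢; linear_combination -h0
          exact absurd (Nat.cast_eq_zero.1 this) (by omega)
        refine (hz _ hne).2 ?_
        rwa [show -(m : ℂ) + ((n + 1 : ℕ) : ℂ) * -1 + 1 = -m + (n : ℂ) * -1 by push_cast; ring]
    · push Not at hm
      refine not_forall_translate_root f.denom_ne_zero z 1 one_ne_zero fun n => ?_
      induction n with
      | zero => simpa using hz0
      | succ n ih =>
        have hne : z + (n : ℂ) * 1 ≠ 0 := by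
          intro h0
          exact hm n (by linear_combination h0)
        rw [show z + ((n + 1 : ℕ) : ℂ) * 1 = z + (n : ℂ) * 1 + 1 by push_cast; ring]
        exact (hz _ hne).1 ih
  rw [hone, mul_one, taylor_one, C_1, mul_one, mul_one, mul_one] at heq
  have hg0 : g = 0 := by
    by_contra hg0
    have hdeg : g.degree < N := by
      rw [hg]
      refine lt_of_le_of_lt (degree_sum_le _ _) ((Finset.sup_lt_iff ?_).2 fun k hk => ?_)
      · exact WithBot.bot_lt_coe N
      · refine lt_of_le_of_lt (degree_C_mul_X_pow_le _ _) ?_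
        have := Finset.mem_range.1 hk
        exact_mod_cast (by omega : N - (k + 1) < N)
    have hne : taylor 1 f.num - f.num ≠ 0 := fun h0 => hg0 (by rw [← heq, h0, zero_mul])
    rw [← heq, degree_mul, degree_X_pow, degree_eq_natDegree hne] at hdeg
    norm_cast at hdeg
    omega
  intro k hk
  have h' := congrArg (fun q : ℂ[X] => q.coeff (N - (k + 1))) hg0
  simp only [hg, finsetSum_coeff, coeff_C_mul_X_pow, coeff_zero] at h'
  rw [Finset.sum_eq_single k] at h'
  · simpa using h'
  · intro b hb hbk
    have := Finset.mem_range.1 hb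
    rw [if_neg (by omega)]
  · exact fun hb => absurd (Finset.mem_range.2 hk) hb

end Fermat.Agent.GammaHolder
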